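/-
S59, wall M1 = LOWER-SQ (deputy helper48).  PLAN FILE: the wall as ONE Prop, its leaves as Props,
and the theorem "leaves ⇒ wall" (sorry-free).  Ledger: NOTES/S59-M1.md.  Study: NOTES/S59-p3-M1.md.

Wall (`s59lsq_StmtWall`): `W` semistable, `ρ̄_{W,p}` irreducible (`p ∈ {3, 5}`), `q ≠ p` prime,
`q ∤ M'`, `ρ̄_{W,p}` modular of level `q² M'`  ⇒  `ρ̄_{W,p}` modular of level `q M'`.
(No hypothesis "unipotent at `q`" is needed: `W` is semistable.)

Leaves = the three cases of the tame inertia character at `q`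
(`α^(q-1) = 1` or `α^(q+1) = 1`, `α` of `p`-power order):
* `s59lsq_StmtCheap` : `p ∤ q - 1`, `p ∤ q + 1`  (vacuous by S36 = Carayol; never occurs at `p = 3`),
* `s59lsq_StmtPS`    : `p ∣ q - 1`  (ramified principal series: twist + Carayol's lemma),
* `s59lsq_StmtSC`    : `p ∣ q + 1`  (depth-zero supercuspidal: Diamond–Taylor).

Consumer form (`s59lsq_sqfree_of_wall`): from a level `M₀` that is cube-free away from `p` to a
level `M₁ ∣ M₀` that is squarefree away from `p`, with the same `p`-part.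
-/
import Fermat.Prelude.Def_WeierstrassCurve_Mlc1RowStatement

set_option autoImplicit false

namespace Fermat.Agent.S59

/-- The common shape of the M1 statements: `C p q` is the case condition. -/
def s59lsq_Stmt (C : ℕ → ℕ → Prop) : Prop :=
  ∀ (p : ℕ), (p = 3 ∨ p = 5) → ∀ (W : WeierstrassCurve ℤ), W.Δ ≠ 0 → W.IsSemistableModel →
    W.ModRepIsIrreducible p → ∀ (q M' : ℕ), q.Prime → q ≠ p → 0 < M' → ¬ q ∣ M' → C p q →
    W.IsResiduallyModularOfLevel p (q ^ 2 * M') → W.IsResiduallyModularOfLevel p (q * M')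

/-- **Wall M1 (LOWER-SQ)**. -/
def s59lsq_StmtWall : Prop := s59lsq_Stmt (fun _ _ => True)

/-- Leaf **Cheap**: `p ∤ q² - 1`. -/
def s59lsq_StmtCheap : Prop := s59lsq_Stmt (fun p q => ¬ p ∣ q - 1 ∧ ¬ p ∣ q + 1)

/-- Leaf **PS**: `p ∣ q - 1` (ramified principal series). -/
def s59lsq_StmtPS : Prop := s59lsq_Stmt (fun p q => p ∣ q - 1)

/-- Leaf **SC**: `p ∣ q + 1` (depth-zero supercuspidal). -/
def s59lsq_StmtSC : Prop := s59lsq_Stmt (fun p q => p ∣ q + 1)

/-- **leaves ⇒ wall**. -/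
theorem s59lsq_wall_of_cases (h1 : s59lsq_StmtCheap) (h2 : s59lsq_StmtPS)
    (h3 : s59lsq_StmtSC) : s59lsq_StmtWall := by
  intro p hp W hΔ hW hirr q M' hq hqp hM' hqM' _ hres
  by_cases hA : p ∣ q - 1
  · exact h2 p hp W hΔ hW hirr q M' hq hqp hM' hqM' hA hres
  · by_cases hB : p ∣ q + 1
    · exact h3 p hp W hΔ hW hirr q M' hq hqp hM' hqM' hB hres
    · exact h1 p hp W hΔ hW hirr q M' hq hqp hM' hqM' ⟨hA, hB⟩ hres

/-- At `p = 3` the cheap case never occurs: every prime `q ≠ 3` has `3 ∣ q - 1` or `3 ∣ q + 1`. -/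
theorem s59lsq_three_dvd (q : ℕ) (hq : q.Prime) (hq3 : q ≠ 3) : 3 ∣ q - 1 ∨ 3 ∣ q + 1 := by
  have h3 : ¬ 3 ∣ q := fun h => hq3 ((Nat.prime_dvd_prime_iff_eq Nat.prime_three hq).mp h).symm
  have h1 : 1 ≤ q := hq.one_lt.le
  omega

end Fermat.Agent.S59
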