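/-
S59, wall M1 = LOWER-SQ (deputy helper48): the CONSUMER FORM of the wall.

`s59lsq_sqfree_of_wall`: if the wall `s59lsq_StmtWall` holds, then a level `M₀` that is cube-free
away from `p` can be replaced by a level `M₁ ∣ M₀` that is SQUAREFREE away from `p`, with the same
prime divisors and the same `p`-part.  Pure arithmetic on top of `S59/LowSq/Plan.lean`.
-/
import Fermat.Agent.S59.LowSq.Plan

set_option autoImplicit false

namespace Fermat.Agent.S59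

/-- `q² ∣ M`, `q³ ∤ M` ⇒ `M = q² M'` with `q ∤ M'`. -/
theorem s59lsq_split (q M : ℕ) (h2 : q ^ 2 ∣ M) (h3 : ¬ q ^ 3 ∣ M) :
    ∃ M' : ℕ, M = q ^ 2 * M' ∧ ¬ q ∣ M' := by
  obtain ⟨M', rfl⟩ := h2
  refine ⟨M', rfl, fun h => h3 ?_⟩
  obtain ⟨c, rfl⟩ := h
  exact ⟨c, by ring⟩

/-- **Consumer form of wall M1**: from cube-free away from `p` to squarefree away from `p`. -/
theorem s59lsq_sqfree_of_wall (hwall : s59lsq_StmtWall) (p : ℕ) (hp : p = 3 ∨ p = 5)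
    (W : WeierstrassCurve ℤ) (hΔ : W.Δ ≠ 0) (hW : W.IsSemistableModel)
    (hirr : W.ModRepIsIrreducible p) :
    ∀ (M₀ : ℕ), 0 < M₀ → W.IsResiduallyModularOfLevel p M₀ →
      (∀ q : ℕ, q.Prime → q ≠ p → ¬ q ^ 3 ∣ M₀) →
      ∃ M₁ : ℕ, 0 < M₁ ∧ M₁ ∣ M₀ ∧ W.IsResiduallyModularOfLevel p M₁ ∧
        (∀ q : ℕ, q.Prime → q ≠ p → ¬ q ^ 2 ∣ M₁) ∧
        (∀ q : ℕ, q.Prime → q ∣ M₀ → q ∣ M₁) ∧
        (∀ k : ℕ, p ^ k ∣ M₀ → p ^ k ∣ M₁) := by
  have hpp : p.Prime := by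
    rcases hp with rfl | rfl
    · exact Nat.prime_three
    · exact Nat.prime_five
  intro M₀
  induction M₀ using Nat.strong_induction_on with
  | _ M₀ ih =>
    intro hpos hres h3
    by_cases hsq : ∀ q : ℕ, q.Prime → q ≠ p → ¬ q ^ 2 ∣ M₀
    · exact ⟨M₀, hpos, dvd_rfl, hres, hsq, fun _ _ h => h, fun _ h => h⟩
    · have hsq' : ∃ q : ℕ, q.Prime ∧ q ≠ p ∧ q ^ 2 ∣ M₀ := by
        by_contra hcon
        exact hsq (fun q hq hqp hq2 => hcon ⟨q, hq, hqp, hq2⟩)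
      obtain ⟨q, hq, hqp, hq2⟩ := hsq'
      obtain ⟨M', rfl, hqM'⟩ := s59lsq_split q M₀ hq2 (h3 q hq hqp)
      have hM'pos : 0 < M' := Nat.pos_of_ne_zero (fun h => by simp [h] at hpos)
      have hres' : W.IsResiduallyModularOfLevel p (q * M') :=
        hwall p hp W hΔ hW hirr q M' hq hqp hM'pos hqM' trivial hres
      have hlt : q * M' < q ^ 2 * M' := by
        have h1 : q < q ^ 2 := by
          have := hq.one_lt
          nlinarith
        exact Nat.mul_lt_mul_of_pos_right h1 hM'pos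
      have hdvd : q * M' ∣ q ^ 2 * M' := ⟨q, by ring⟩
      have h3' : ∀ r : ℕ, r.Prime → r ≠ p → ¬ r ^ 3 ∣ q * M' :=
        fun r hr hrp h => h3 r hr hrp (h.trans hdvd)
      obtain ⟨M₁, hM₁pos, hM₁dvd, hM₁res, hM₁sq, hM₁rad, hM₁p⟩ :=
        ih (q * M') hlt (Nat.mul_pos hq.pos hM'pos) hres' h3'
      refine ⟨M₁, hM₁pos, hM₁dvd.trans hdvd, hM₁res, hM₁sq, ?_, ?_⟩
      · intro r hr hrdvd
        apply hM₁rad r hr
        rcases (Nat.Prime.dvd_mul hr).mp hrdvd with h | h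
        · exact (hr.dvd_of_dvd_pow h).mul_right M'
        · exact h.mul_left q
      · intro k hk
        apply hM₁p k
        have hcop : Nat.Coprime (p ^ k) (q ^ 2) :=
          Nat.Coprime.pow k 2 ((Nat.coprime_primes hpp hq).mpr (Ne.symm hqp))
        have hkM' : p ^ k ∣ M' := hcop.dvd_of_dvd_mul_left hk
        exact hkM'.mul_left q

end Fermat.Agent.S59
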