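/-
S59, wall M1 = LOWER-SQ, leaf TAME (helper29; asked by helper48).  Mathlib only.

The tame inertia lemma.  `A = ρ(τ)` (`τ` a generator of tame inertia at `q`), `Φ = ρ(Frob_q)`:

* `s59lsq_tame_pow_field` / `s59lsq_tame_pow` : `A` a `2 × 2` matrix of determinant `1` and of
  finite order over a domain of characteristic `0`, `Φ` invertible, `Φ A = A^q Φ`
  ⇒ `A ^ (q - 1) = 1 ∨ A ^ (q + 1) = 1`
  (eigenvalues `{α, α⁻¹} = {α^q, α^{-q}}`, `A` semisimple);
* `s59lsq_tame_one` : over a local ring with `p ∈ 𝔪`, a matrix (any size) that is unipotent of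
  index `2` mod `𝔪` and killed by an exponent prime to `p` is `1`;
* `s59lsq_tame_main` (matrices), `s59lsq_tame_main_GL` (`GL (Fin 2) R`): both together:
  `A ^ (q - 1) = 1 ∨ A ^ (q + 1) = 1`, and `¬ p ∣ q ^ 2 - 1 → A = 1`.
-/
import Mathlib

set_option autoImplicit false
set_option linter.style.haveILetI false
set_option linter.deprecated false

noncomputable section

namespace Fermat.Agent.S59

open Matrix

/-! ### Commutative algebra: an element killed by a quadratic with roots of unity as roots -/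

section CommAlg

variable {K S : Type*} [Field K] [CommRing S] [Algebra K S]

theorem s59lsq_tame_mul_pow (a P : S) (α : K) (h : a * P = algebraMap K S α * P) (k : ℕ) :
    a ^ k * P = algebraMap K S (α ^ k) * P := by
  induction k with
  | zero => simp
  | succ k ih =>
    rw [pow_succ, mul_assoc, h, mul_left_comm, ih, pow_succ, map_mul]
    ring

/-- distinct roots: `(a - α)(a - β) = 0`, `α ≠ β`, `α ^ m = β ^ m = 1` ⇒ `a ^ m = 1`. -/
theorem s59lsq_tame_pow_of_ne (a : S) (α β : K) (hne : α ≠ β)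
    (hchi : (a - algebraMap K S α) * (a - algebraMap K S β) = 0)
    (m : ℕ) (hα : α ^ m = 1) (hβ : β ^ m = 1) : a ^ m = 1 := by
  have h1 : a * (a - algebraMap K S β) = algebraMap K S α * (a - algebraMap K S β) := by
    linear_combination hchi
  have h2 : a * (a - algebraMap K S α) = algebraMap K S β * (a - algebraMap K S α) := by
    linear_combination hchi
  have h1m := s59lsq_tame_mul_pow a _ α h1 m
  have h2m := s59lsq_tame_mul_pow a _ β h2 m
  rw [hα, map_one, one_mul] at h1m
  rw [hβ, map_one, one_mul] at h2m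
  have h4 : algebraMap K S (α - β) * (a ^ m - 1) = 0 := by
    rw [map_sub]
    linear_combination h1m - h2m
  have hu : IsUnit (algebraMap K S (α - β)) := (IsUnit.mk0 _ (sub_ne_zero.mpr hne)).map _
  exact sub_eq_zero.mp (hu.mul_right_eq_zero.mp h4)

/-- a double root: `(a - α)² = 0`, `a ^ n = 1` with `n > 0` in characteristic `0` ⇒ `a = α`. -/
theorem s59lsq_tame_eq_of_sq [CharZero K] (a : S) (α : K) (hα0 : α ≠ 0)
    (hchi : (a - algebraMap K S α) ^ 2 = 0)
    (n : ℕ) (hn : 0 < n) (han : a ^ n = 1) : a = algebraMap K S α := by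
  rcases subsingleton_or_nontrivial S with hS | hS
  · exact Subsingleton.elim _ _
  have hinj : Function.Injective (algebraMap K S) := (algebraMap K S).injective
  set N : S := a - algebraMap K S α with hN
  have hN2 : N * N = 0 := by rw [← sq]; exact hchi
  set c : S := algebraMap K S α with hc
  have ha : a = c + N := by rw [hN]; ring
  have key : ∀ k : ℕ, c * a ^ k = c ^ (k + 1) + (k : S) * c ^ k * N := by
    intro k
    induction k with
    | zero => simp
    | succ k ih =>
      rw [pow_succ, ← mul_assoc, ih, Nat.cast_succ]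
      linear_combination (c ^ (k + 1) + (k : S) * c ^ k * N) * ha + ((k : S) * c ^ k) * hN2
  have h1 := key n
  rw [han, mul_one] at h1
  -- α (1 - α^n) = n α^n N
  have h2 : algebraMap K S (α * (1 - α ^ n)) = (n : S) * algebraMap K S (α ^ n) * N := by
    simp only [map_mul, map_sub, map_one, map_pow]
    rw [← hc]
    linear_combination h1
  have h3 : algebraMap K S ((α * (1 - α ^ n)) ^ 2) = 0 := by
    rw [map_pow, h2]
    linear_combination ((n : S) * algebraMap K S (α ^ n)) ^ 2 * hN2
  have h4 : (α * (1 - α ^ n)) ^ 2 = 0 := hinj (by rw [h3, map_zero])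
  have h5 : α ^ n = 1 := by
    have := pow_eq_zero_iff (two_ne_zero) |>.mp h4
    rcases mul_eq_zero.mp this with h | h
    · exact absurd h hα0
    · exact (sub_eq_zero.mp h).symm
  have h6 : algebraMap K S ((n : K) * α ^ n) * N = 0 := by
    have : algebraMap K S (α * (1 - α ^ n)) = 0 := by rw [h5]; simp
    rw [this] at h2
    rw [map_mul, map_natCast]
    exact h2.symm
  have hu : IsUnit (algebraMap K S ((n : K) * α ^ n)) :=
    (IsUnit.mk0 _ (mul_ne_zero (Nat.cast_ne_zero.mpr hn.ne') (pow_ne_zero _ hα0))).map _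
  have hN0 : N = 0 := hu.mul_right_eq_zero.mp h6
  exact sub_eq_zero.mp hN0

end CommAlg

/-! ### The same in a (non-commutative) algebra, through the commutative subalgebra `K[A]` -/

section NonComm

variable {K B : Type*} [Field K] [Ring B] [Algebra K B]

theorem s59lsq_tame_pow_of_ne' (A : B) (α β : K) (hne : α ≠ β)
    (hchi : (A - algebraMap K B α) * (A - algebraMap K B β) = 0)
    (m : ℕ) (hα : α ^ m = 1) (hβ : β ^ m = 1) : A ^ m = 1 := by
  letI : CommRing (Algebra.adjoin K ({A} : Set B)) := Algebra.adjoinCommRingOfComm K (by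
    intro x hx y hy
    rw [Set.mem_singleton_iff] at hx hy
    rw [hx, hy])
  let a : Algebra.adjoin K ({A} : Set B) := ⟨A, Algebra.subset_adjoin (Set.mem_singleton A)⟩
  have h := s59lsq_tame_pow_of_ne a α β hne (Subtype.ext (by simpa [a] using hchi)) m hα hβ
  simpa [a] using congrArg Subtype.val h

theorem s59lsq_tame_eq_of_sq' [CharZero K] (A : B) (α : K) (hα0 : α ≠ 0)
    (hchi : (A - algebraMap K B α) ^ 2 = 0)
    (n : ℕ) (hn : 0 < n) (han : A ^ n = 1) : A = algebraMap K B α := by
  letI : CommRing (Algebra.adjoin K ({A} : Set B)) := Algebra.adjoinCommRingOfComm K (by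
    intro x hx y hy
    rw [Set.mem_singleton_iff] at hx hy
    rw [hx, hy])
  let a : Algebra.adjoin K ({A} : Set B) := ⟨A, Algebra.subset_adjoin (Set.mem_singleton A)⟩
  have h := s59lsq_tame_eq_of_sq a α hα0 (Subtype.ext (by simpa [a] using hchi)) n hn
    (Subtype.ext (by simpa [a] using han))
  simpa [a] using congrArg Subtype.val h

end NonComm

/-! ### `2 × 2` matrices over a field -/

section Field2

variable {K : Type*} [Field K]

/-- Cayley–Hamilton for `2 × 2` matrices, in factored form. -/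
theorem s59lsq_tame_ch (A : Matrix (Fin 2) (Fin 2) K) (α β : K)
    (hsum : α + β = A.trace) (hprod : α * β = A.det) :
    (A - algebraMap K (Matrix (Fin 2) (Fin 2) K) α) *
      (A - algebraMap K (Matrix (Fin 2) (Fin 2) K) β) = 0 := by
  rw [Matrix.trace_fin_two] at hsum
  rw [Matrix.det_fin_two] at hprod
  ext i j
  fin_cases i <;> fin_cases j
  · simp [Matrix.mul_apply, Fin.sum_univ_two, Matrix.algebraMap_matrix_apply]
    linear_combination (-(A 0 0)) * hsum + hprod
  · simp [Matrix.mul_apply, Fin.sum_univ_two, Matrix.algebraMap_matrix_apply]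
    linear_combination (-(A 0 1)) * hsum
  · simp [Matrix.mul_apply, Fin.sum_univ_two, Matrix.algebraMap_matrix_apply]
    linear_combination (-(A 1 0)) * hsum
  · simp [Matrix.mul_apply, Fin.sum_univ_two, Matrix.algebraMap_matrix_apply]
    linear_combination (-(A 1 1)) * hsum + hprod

/-- `A² = t A - 1` for `det A = 1`. -/
theorem s59lsq_tame_sq (A : Matrix (Fin 2) (Fin 2) K) (hdet : A.det = 1) :
    A * A = A.trace • A - 1 := by
  rw [Matrix.det_fin_two] at hdet
  ext i j
  fin_cases i <;> fin_cases j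
  · simp [Matrix.mul_apply, Fin.sum_univ_two, Matrix.trace_fin_two]
    linear_combination -hdet
  · simp [Matrix.mul_apply, Fin.sum_univ_two, Matrix.trace_fin_two]
    ring
  · simp [Matrix.mul_apply, Fin.sum_univ_two, Matrix.trace_fin_two]
    ring
  · simp [Matrix.mul_apply, Fin.sum_univ_two, Matrix.trace_fin_two]
    linear_combination -hdet

/-- `tr (A ^ m) = α ^ m + β ^ m` for the two roots of the characteristic polynomial. -/
theorem s59lsq_tame_trace_pow (A : Matrix (Fin 2) (Fin 2) K) (hdet : A.det = 1) (α β : K)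
    (hsum : α + β = A.trace) (hprod : α * β = 1) (m : ℕ) :
    (A ^ m).trace = α ^ m + β ^ m := by
  have hch := s59lsq_tame_sq A hdet
  have hα : α * α = A.trace * α - 1 := by rw [← hsum]; linear_combination -hprod
  have hβ : β * β = A.trace * β - 1 := by rw [← hsum]; linear_combination -hprod
  have key : ∀ m : ℕ, (A ^ m).trace = α ^ m + β ^ m ∧
      (A ^ (m + 1)).trace = α ^ (m + 1) + β ^ (m + 1) := by
    intro m
    induction m with
    | zero =>
      refine ⟨?_, ?_⟩
      · simp [Matrix.trace_one]; norm_num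
      · simp [hsum]
    | succ m ih =>
      refine ⟨ih.2, ?_⟩
      have e : A ^ (m + 1 + 1) = A.trace • A ^ (m + 1) - A ^ m := by
        rw [pow_succ, pow_succ, mul_assoc, hch, mul_sub, mul_smul_comm, mul_one, ← pow_succ]
      rw [e, Matrix.trace_sub, Matrix.trace_smul, ih.1, ih.2, smul_eq_mul]
      linear_combination (-(α ^ m)) * hα + (-(β ^ m)) * hβ
  exact (key m).1

/-- **TAME, field level.** -/
theorem s59lsq_tame_pow_field [IsAlgClosed K] [CharZero K] (A : Matrix (Fin 2) (Fin 2) K)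
    (hdet : A.det = 1) (n : ℕ) (hn : 0 < n) (hAn : A ^ n = 1) (q : ℕ) (hq : 0 < q)
    (htr : (A ^ q).trace = A.trace) :
    A ^ (q - 1) = 1 ∨ A ^ (q + 1) = 1 := by
  obtain ⟨s, hs⟩ := IsAlgClosed.exists_pow_nat_eq (A.trace ^ 2 - 4) (n := 2) (by norm_num)
  have h2 : (2 : K) ≠ 0 := two_ne_zero
  set α : K := (A.trace + s) / 2 with hαdef
  set β : K := (A.trace - s) / 2 with hβdef
  have hsum : α + β = A.trace := by rw [hαdef, hβdef]; field_simp; ring
  have hprod : α * β = 1 := by
    rw [hαdef, hβdef]; field_simp; linear_combination -hs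
  have hα0 : α ≠ 0 := left_ne_zero_of_mul_eq_one hprod
  have htrq := s59lsq_tame_trace_pow A hdet α β hsum hprod q
  have e : α + β = α ^ q + β ^ q := hsum.trans (htr.symm.trans htrq)
  have hpq : α ^ q * β ^ q = 1 := by rw [← mul_pow, hprod, one_pow]
  have hz : (α ^ q - α) * (α ^ q - β) = 0 := by
    linear_combination (-(α ^ q)) * e - hpq + hprod
  have hchi := s59lsq_tame_ch A α β hsum (hprod.trans hdet.symm)
  -- `α ^ m = β ^ m = 1` ⇒ `A ^ m = 1`
  have hfin : ∀ m : ℕ, α ^ m = 1 → A ^ m = 1 := by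
    intro m hm
    have hβm : β ^ m = 1 := by
      have : α ^ m * β ^ m = 1 := by rw [← mul_pow, hprod, one_pow]
      rwa [hm, one_mul] at this
    by_cases hne : α = β
    · have hsq : (A - algebraMap K (Matrix (Fin 2) (Fin 2) K) α) ^ 2 = 0 := by
        rw [sq]; nth_rewrite 2 [hne]; exact hchi
      have hA := s59lsq_tame_eq_of_sq' A α hα0 hsq n hn hAn
      rw [hA, ← map_pow, hm, map_one]
    · exact s59lsq_tame_pow_of_ne' A α β hne hchi m hm hβm
  rcases mul_eq_zero.mp hz with h | h
  · left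
    apply hfin
    have h' : α ^ q = α := sub_eq_zero.mp h
    have h'' : α ^ (q - 1) * α = 1 * α := by
      rw [← pow_succ, Nat.sub_add_cancel hq, h', one_mul]
    exact mul_right_cancel₀ hα0 h''
  · right
    apply hfin
    have h' : α ^ q = β := sub_eq_zero.mp h
    rw [pow_succ, h', mul_comm, hprod]

end Field2

/-! ### `2 × 2` matrices over a domain of characteristic `0` -/

section Domain2

variable {R : Type*} [CommRing R] [IsDomain R] [CharZero R]

/-- **TAME (1)**: `A` of finite order, `det A = 1`, `Φ A = A ^ q Φ` with `Φ` invertible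
⇒ `A ^ (q - 1) = 1 ∨ A ^ (q + 1) = 1`. -/
theorem s59lsq_tame_pow (A Φ : Matrix (Fin 2) (Fin 2) R) (hdet : A.det = 1)
    (hΦ : IsUnit Φ.det) (n : ℕ) (hn : 0 < n) (hAn : A ^ n = 1) (q : ℕ) (hq : 0 < q)
    (hconj : Φ * A = A ^ q * Φ) :
    A ^ (q - 1) = 1 ∨ A ^ (q + 1) = 1 := by
  -- the trace
  have htr : (A ^ q).trace = A.trace := by
    have h1 : A ^ q = Φ * A * Φ⁻¹ := by
      rw [hconj, mul_assoc, Matrix.mul_nonsing_inv Φ hΦ, mul_one]
    rw [h1, Matrix.trace_mul_comm, ← mul_assoc, Matrix.nonsing_inv_mul Φ hΦ, one_mul]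
  -- pass to an algebraically closed field
  let K := AlgebraicClosure (FractionRing R)
  let f : R →+* K := algebraMap R K
  have hf : Function.Injective f := by
    have : f = (algebraMap (FractionRing R) K).comp (algebraMap R (FractionRing R)) :=
      IsScalarTower.algebraMap_eq R (FractionRing R) K
    rw [this]
    exact (algebraMap (FractionRing R) K).injective.comp (IsFractionRing.injective R _)
  haveI : CharZero K := charZero_of_injective_ringHom hf
  have hmap : Function.Injective (f.mapMatrix : Matrix (Fin 2) (Fin 2) R →+* _) := by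
    intro X Y h
    exact Matrix.map_injective hf h
  have hdet' : (f.mapMatrix A).det = 1 := by
    rw [← RingHom.map_det, hdet, map_one]
  have hAn' : (f.mapMatrix A) ^ n = 1 := by rw [← map_pow, hAn, map_one]
  have htr' : ((f.mapMatrix A) ^ q).trace = (f.mapMatrix A).trace := by
    rw [← map_pow]
    simp only [RingHom.mapMatrix_apply]
    rw [← AddMonoidHom.map_trace f, ← AddMonoidHom.map_trace f, htr]
  rcases s59lsq_tame_pow_field (f.mapMatrix A) hdet' n hn hAn' q hq htr' with h | h
  · left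
    apply hmap
    rw [map_pow, h, map_one]
  · right
    apply hmap
    rw [map_pow, h, map_one]

end Domain2

/-! ### Unipotent mod `𝔪` and of order prime to `p` ⇒ trivial -/

section Local

variable {R : Type*} [CommRing R] [IsLocalRing R] {ι : Type*} [Fintype ι] [DecidableEq ι]

/-- `N` prime to `p` and `p ∈ 𝔪` ⇒ `N` is a unit of the local ring `R`. -/
theorem s59lsq_tame_isUnit_natCast {p N : ℕ} (hp : (p : R) ∈ IsLocalRing.maximalIdeal R)
    (hN : Nat.Coprime N p) : IsUnit (N : R) := by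
  by_contra h
  have hNm : (N : R) ∈ IsLocalRing.maximalIdeal R := (IsLocalRing.mem_maximalIdeal _).mpr h
  have h1 : ((N.gcd p : ℕ) : ℤ) = N * Nat.gcdA N p + p * Nat.gcdB N p := Nat.gcd_eq_gcd_ab N p
  rw [hN] at h1
  have h2 : (1 : R) = (N : R) * ((Nat.gcdA N p : ℤ) : R) + (p : R) * ((Nat.gcdB N p : ℤ) : R) := by
    have := congrArg (Int.cast : ℤ → R) h1
    push_cast at this
    exact this
  have h3 : (1 : R) ∈ IsLocalRing.maximalIdeal R := by
    rw [h2]
    exact Ideal.add_mem _ (Ideal.mul_mem_right _ _ hNm) (Ideal.mul_mem_right _ _ hp)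
  exact (Ideal.ne_top_iff_one _).mp (IsLocalRing.maximalIdeal.isMaximal R).ne_top h3

/-- over a field: `(X - 1)² = 0`, `X ^ N = 1`, `N ≠ 0` in the field ⇒ `X = 1`. -/
theorem s59lsq_tame_one_field {k : Type*} [Field k] (X : Matrix ι ι k) (N : ℕ)
    (hN : (N : k) ≠ 0) (hX : (X - 1) ^ 2 = 0) (hXN : X ^ N = 1) : X = 1 := by
  set B := X - 1 with hB
  have hB2 : B * B = 0 := by rw [← sq]; exact hX
  have hXB : X = 1 + B := by rw [hB]; abel
  have key : ∀ m : ℕ, X ^ m = 1 + (m : k) • B := by
    intro m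
    induction m with
    | zero => simp
    | succ m ih =>
      rw [pow_succ, ih, hXB, add_mul, mul_add, mul_add, one_mul, one_mul, mul_one,
        smul_mul_assoc, hB2, smul_zero, add_zero, Nat.cast_succ, add_smul, one_smul]
      abel
  have h1 := key N
  rw [hXN] at h1
  have h2 : (N : k) • B = 0 := by
    have := h1.symm
    rwa [add_eq_left] at this
  have h3 : B = 0 := by
    rcases smul_eq_zero.mp h2 with h | h
    · exact absurd h hN
    · exact h
  rw [hXB, h3, add_zero]

/-- **TAME (2)**: over a local ring with `p ∈ 𝔪`: `(A - 1)² ≡ 0 mod 𝔪` and `A ^ N = 1` with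
`N` prime to `p` ⇒ `A = 1`. -/
theorem s59lsq_tame_one {p N : ℕ} (hp : (p : R) ∈ IsLocalRing.maximalIdeal R)
    (hN : Nat.Coprime N p) (A : Matrix ι ι R)
    (hunip : ∀ i j, ((A - 1) ^ 2 : Matrix ι ι R) i j ∈ IsLocalRing.maximalIdeal R)
    (hAN : A ^ N = 1) : A = 1 := by
  let res : R →+* IsLocalRing.ResidueField R := IsLocalRing.residue R
  have hNu : IsUnit (N : R) := s59lsq_tame_isUnit_natCast hp hN
  have hNk : ((N : ℕ) : IsLocalRing.ResidueField R) ≠ 0 := by
    have : IsUnit (res (N : R)) := hNu.map res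
    rw [map_natCast] at this
    exact this.ne_zero
  -- step (b): `A ≡ 1 mod 𝔪`
  have hA1 : res.mapMatrix A = 1 := by
    apply s59lsq_tame_one_field (res.mapMatrix A) N hNk
    · have : (res.mapMatrix A - 1) ^ 2 = res.mapMatrix ((A - 1) ^ 2) := by
        rw [map_pow, map_sub, map_one]
      rw [this]
      ext i j
      simp only [RingHom.mapMatrix_apply, Matrix.map_apply, Matrix.zero_apply]
      exact (IsLocalRing.residue_eq_zero_iff _).mpr (hunip i j)
    · rw [← map_pow, hAN, map_one]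
  -- step (c): `(A - 1) * C = 0` with `C = ∑_{k < N} A ^ k ≡ N`
  set C : Matrix ι ι R := ∑ k ∈ Finset.range N, A ^ k with hC
  have hBC : (A - 1) * C = 0 := by rw [hC, mul_geom_sum, hAN, sub_self]
  have hCres : res.mapMatrix C = (N : IsLocalRing.ResidueField R) • (1 : Matrix ι ι _) := by
    rw [hC, map_sum]
    simp only [map_pow, hA1, one_pow, Finset.sum_const, Finset.card_range]
    rw [Nat.cast_smul_eq_nsmul]
  have hdetC : IsUnit C.det := by
    have h1 : res C.det = (res.mapMatrix C).det := RingHom.map_det res C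
    rw [hCres, Matrix.det_smul, Matrix.det_one, mul_one] at h1
    have h2 : res C.det ≠ 0 := by rw [h1]; exact pow_ne_zero _ hNk
    by_contra hnu
    exact h2 ((IsLocalRing.residue_eq_zero_iff _).mpr ((IsLocalRing.mem_maximalIdeal _).mpr hnu))
  have h0 : A - 1 = 0 := by
    have := congrArg (· * C⁻¹) hBC
    simpa [mul_assoc, Matrix.mul_nonsing_inv C hdetC] using this
  exact sub_eq_zero.mp h0

end Local

/-! ### The leaf -/

section Main

variable {R : Type*} [CommRing R] [IsDomain R] [CharZero R] [IsLocalRing R]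

/-- **TAME.**  `R` a local domain of characteristic `0` with `p ∈ 𝔪`; `A` of finite order,
`det A = 1`, unipotent mod `𝔪`, `Φ` invertible with `Φ A = A ^ q Φ`, `q ≥ 1`.  Then
`A ^ (q - 1) = 1 ∨ A ^ (q + 1) = 1`, and `A = 1` if `p ∤ q² - 1`. -/
theorem s59lsq_tame_main {p q : ℕ} (hp : p.Prime) (hpm : (p : R) ∈ IsLocalRing.maximalIdeal R)
    (hq : 0 < q) (A Φ : Matrix (Fin 2) (Fin 2) R) (hdet : A.det = 1) (hΦ : IsUnit Φ.det)
    (hfin : ∃ n : ℕ, 0 < n ∧ A ^ n = 1)
    (hunip : ∀ i j, ((A - 1) ^ 2 : Matrix (Fin 2) (Fin 2) R) i j ∈ IsLocalRing.maximalIdeal R)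
    (hconj : Φ * A = A ^ q * Φ) :
    (A ^ (q - 1) = 1 ∨ A ^ (q + 1) = 1) ∧ (¬ p ∣ q ^ 2 - 1 → A = 1) := by
  obtain ⟨n, hn, hAn⟩ := hfin
  have h1 := s59lsq_tame_pow A Φ hdet hΦ n hn hAn q hq hconj
  refine ⟨h1, fun hpq => ?_⟩
  have hfac : q ^ 2 - 1 = (q - 1) * (q + 1) := by
    obtain ⟨r, rfl⟩ : ∃ r, q = r + 1 := ⟨q - 1, (Nat.sub_add_cancel hq).symm⟩
    simp only [Nat.add_sub_cancel]
    have : (r + 1) ^ 2 = r * (r + 1 + 1) + 1 := by ring
    rw [this, Nat.add_sub_cancel]
  have hAN : A ^ (q ^ 2 - 1) = 1 := by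
    rw [hfac]
    rcases h1 with h | h
    · rw [pow_mul, h, one_pow]
    · rw [mul_comm, pow_mul, h, one_pow]
  have hcop : Nat.Coprime (q ^ 2 - 1) p :=
    ((Nat.Prime.coprime_iff_not_dvd hp).mpr hpq).symm
  exact s59lsq_tame_one hpm hcop A hunip hAN

/-- **TAME** for `GL (Fin 2) R`: `Φ A Φ⁻¹ = A ^ q`. -/
theorem s59lsq_tame_main_GL {p q : ℕ} (hp : p.Prime)
    (hpm : (p : R) ∈ IsLocalRing.maximalIdeal R) (hq : 0 < q)
    (A Φ : GL (Fin 2) R) (hdet : Matrix.GeneralLinearGroup.det A = 1)
    (hfin : IsOfFinOrder A)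
    (hunip : ∀ i j, (((A : Matrix (Fin 2) (Fin 2) R) - 1) ^ 2 : Matrix (Fin 2) (Fin 2) R) i j ∈
      IsLocalRing.maximalIdeal R)
    (hconj : Φ * A * Φ⁻¹ = A ^ q) :
    (A ^ (q - 1) = 1 ∨ A ^ (q + 1) = 1) ∧ (¬ p ∣ q ^ 2 - 1 → A = 1) := by
  have hdet' : (A : Matrix (Fin 2) (Fin 2) R).det = 1 := by
    have := congrArg (fun u : Rˣ => (u : R)) hdet
    simpa using this
  have hΦ : IsUnit (Φ : Matrix (Fin 2) (Fin 2) R).det :=
    ⟨Matrix.GeneralLinearGroup.det Φ, rfl⟩
  have hfin' : ∃ n : ℕ, 0 < n ∧ (A : Matrix (Fin 2) (Fin 2) R) ^ n = 1 := by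
    obtain ⟨n, hn, hAn⟩ := isOfFinOrder_iff_pow_eq_one.mp hfin
    refine ⟨n, hn, ?_⟩
    have := congrArg (fun g : GL (Fin 2) R => (g : Matrix (Fin 2) (Fin 2) R)) hAn
    simpa using this
  have hconj' : (Φ : Matrix (Fin 2) (Fin 2) R) * A = (A : Matrix (Fin 2) (Fin 2) R) ^ q * Φ := by
    have h : Φ * A = A ^ q * Φ := by rw [← hconj]; group
    have := congrArg (fun g : GL (Fin 2) R => (g : Matrix (Fin 2) (Fin 2) R)) h
    simpa using this
  obtain ⟨h1, h2⟩ := s59lsq_tame_main hp hpm hq (A : Matrix (Fin 2) (Fin 2) R) Φ hdet' hΦ hfin'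
    hunip hconj'
  refine ⟨?_, fun hpq => ?_⟩
  · rcases h1 with h | h
    · left; apply Units.ext; simpa using h
    · right; apply Units.ext; simpa using h
  · apply Units.ext; simpa using h2 hpq

end Main

end Fermat.Agent.S59
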